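import Mathlib
import Fermat.Agent.S17.GDiv.Defs

/-!
# S17 / G-DIV piece RIG (helper110)

`stmtRIG : StmtCORE N L → StmtZRAT N L → StmtCUSPRAT N L → StmtRIG N L`.

Proof.  `n • y = [B]`, `y = [E - m ∞]` with `E = minRep y`, so `B = n (E - m ∞) + div f`.  At a
place `P` which is not rational over `K₁` we have `P ≠ ∞` (CUSPRAT) and `B P = 0`, hence
`ord_P f = - n E(P)`.  So the non-rational zeros and poles of `f` lie in `supp E`, and `ℓ(E) = 1`:
by CORE a constant multiple `c f` has coefficients in `K₁`, and by ZRAT all zeros and poles of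
`c f` (i.e. of `f`) are rational over `K₁`.  Hence no place of `supp E` is non-rational.
-/

set_option autoImplicit false

noncomputable section

open AlgebraicCurve ModularCurve

namespace Fermat.Agent.S17.H110

open Fermat.Agent.Lib.RR Fermat.Agent.S17.H680 Fermat.Agent.S17.GDiv

variable {N : ℕ} [NeZero N] {L : Type} [Field L] [Algebra ℚ L] [FF1 L (FL N L)]

/-- **RIG** from CORE, ZRAT and CUSPRAT. -/
theorem stmtRIG (hCORE : StmtCORE N L) (hZRAT : StmtZRAT N L) (hCUSP : StmtCUSPRAT N L) :
    StmtRIG N L := by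
  intro K₁ hK₁ y n hn B hB hny
  have hy : Pic0.mk (minDiv (cuspL N L) y) = y := mk_minDiv _ y
  have h1 : Pic0.mk (n • minDiv (cuspL N L) y) = Pic0.mk B := by
    have h0 : Pic0.mk (n • minDiv (cuspL N L) y) = n • Pic0.mk (minDiv (cuspL N L) y) := rfl
    rw [h0, hy, hny]
  obtain ⟨f, hf, e⟩ := mk_eq_mk_iff'.mp h1
  -- the order of `f` at a place
  have hord : ∀ P : Place L (FL N L), P.ord f
      = (B : Divisor L (FL N L)) P
        - (n : ℤ) * (minRep (cuspL N L) y P
          - (minDeg (cuspL N L) y : ℤ) * prim (cuspL N L) P) := by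
    intro P
    have h2 := congrArg (fun D : Divisor L (FL N L) => D P) e
    simp only [AddSubgroup.coe_nsmul, coe_minDiv, Finsupp.coe_add, Pi.add_apply,
      Finsupp.coe_smul, Finsupp.coe_sub, divOf_apply, nsmul_eq_mul] at h2
    simp only [Pi.mul_apply, Pi.sub_apply, Pi.natCast_apply] at h2
    rw [h2]
    ring
  -- at a non-rational place
  have hnonrat : ∀ P : Place L (FL N L), ¬ IsRationalOver K₁ P →
      P.ord f = - ((n : ℤ) * minRep (cuspL N L) y P) := by
    intro P hP
    have hPc : P ≠ cuspL N L := fun h => hP (h ▸ hCUSP K₁)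
    have hB0 : (B : Divisor L (FL N L)) P = 0 := by
      by_contra hne
      exact hP (hB P (Finsupp.mem_support_iff.mpr hne))
    rw [hord P, hB0, prim_apply_of_ne hPc]
    ring
  have hE0 : 0 ≤ minRep (cuspL N L) y := minRep_nonneg _ y
  have hEP : ∀ P : Place L (FL N L), 0 ≤ minRep (cuspL N L) y P := fun P => by
    simpa using Finsupp.le_def.mp hE0 P
  obtain ⟨c, hc, hcf⟩ := hCORE K₁ hK₁ f hf (minRep (cuspL N L) y) hE0 (ell_minRep _ y)
    (fun P hP hPf => by
      rw [hnonrat P hP] at hPf
      have h3 : minRep (cuspL N L) y P ≠ 0 := fun h0 => hPf (by rw [h0]; ring)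
      exact lt_of_le_of_ne (hEP P) (Ne.symm h3))
  have hcf0 : c • f ≠ 0 := by
    rw [Algebra.smul_def]
    exact mul_ne_zero ((map_ne_zero (algebraMap L (FL N L))).mpr hc) hf
  have hordc : ∀ P : Place L (FL N L), P.ord (c • f) = P.ord f := by
    intro P
    have := congrArg (fun D : Divisor L (FL N L) => D P) (divOf_smul c hc f hf hcf0)
    simpa [divOf_apply] using this
  intro P hP
  by_contra hPrat
  have h4 : minRep (cuspL N L) y P ≠ 0 := Finsupp.mem_support_iff.mp hP
  have h5 : P.ord (c • f) ≠ 0 := by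
    rw [hordc P, hnonrat P hPrat]
    intro h0
    have : (n : ℤ) * minRep (cuspL N L) y P = 0 := by linarith
    rcases mul_eq_zero.mp this with h | h
    · exact hn (by exact_mod_cast h)
    · exact h4 h
  exact hPrat (hZRAT K₁ hK₁ (c • f) hcf P h5)

end Fermat.Agent.S17.H110
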