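import Mathlib

/-!
# Siegel's lemma in Pluecker-height form: the Minkowski step (helper110, row S17, leaf MINK)

For an integer matrix `A` with rows indexed by `m` and columns indexed by `m ⊕ κ` whose leading
maximal minor `Δ` is nonzero and maximal in absolute value, there is a nonzero integer vector
in the kernel of `A` all of whose coordinates are bounded by `card κ * |Δ| ^ (1 / card κ)`.
-/

set_option linter.unusedSectionVars false

namespace Fermat.Agent.S17.H110

open Matrix MeasureTheory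

section Mink

variable {m κ : Type*} [Fintype m] [DecidableEq m] [Fintype κ] [DecidableEq κ]

/-- The auxiliary real square matrix `[[P, Q], [0, 1]]` attached to `A = [P | Q]`. -/
noncomputable def auxMat (A : Matrix m (m ⊕ κ) ℤ) : Matrix (m ⊕ κ) (m ⊕ κ) ℝ :=
  Matrix.fromBlocks ((A.submatrix id Sum.inl).map (Int.cast : ℤ → ℝ))
    ((A.submatrix id Sum.inr).map (Int.cast : ℤ → ℝ)) 0 1

theorem det_auxMat (A : Matrix m (m ⊕ κ) ℤ) :
    (auxMat A).det = (((A.submatrix id Sum.inl).det : ℤ) : ℝ) := by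
  rw [auxMat, Matrix.det_fromBlocks_zero₂₁, det_one, mul_one]
  have : (((A.submatrix id Sum.inl).det : ℤ) : ℝ)
      = ((Int.castRingHom ℝ).mapMatrix (A.submatrix id Sum.inl)).det := by
    rw [← RingHom.map_det]; rfl
  rw [this]; rfl

theorem auxMat_mulVec_inl (A : Matrix m (m ⊕ κ) ℤ) (x : m ⊕ κ → ℝ) (i : m) :
    (auxMat A *ᵥ x) (Sum.inl i) = ∑ j, (A i j : ℝ) * x j := by
  simp [auxMat, Matrix.mulVec, dotProduct, Fintype.sum_sum_type]

theorem auxMat_mulVec_inr (A : Matrix m (m ⊕ κ) ℤ) (x : m ⊕ κ → ℝ) (l : κ) :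
    (auxMat A *ᵥ x) (Sum.inr l) = x (Sum.inr l) := by
  simp [auxMat, Matrix.mulVec, dotProduct, Fintype.sum_sum_type, Matrix.one_apply]

/-- Minkowski step: a nonzero integer kernel vector whose `κ`-coordinates are `< B`. -/
theorem exists_int_vector_in_box (A : Matrix m (m ⊕ κ) ℤ)
    (hΔ : (A.submatrix id Sum.inl).det ≠ 0) (B : ℝ) (hB : 0 < B)
    (hlt : |(((A.submatrix id Sum.inl).det : ℤ) : ℝ)| < B ^ Fintype.card κ) :
    ∃ a : m ⊕ κ → ℤ, a ≠ 0 ∧ A *ᵥ a = 0 ∧ ∀ l, |(a (Sum.inr l) : ℝ)| < B := by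
  classical
  have hdetT : (auxMat A).det ≠ 0 := by
    rw [det_auxMat]; exact_mod_cast hΔ
  set f : ((m ⊕ κ) → ℝ) →ₗ[ℝ] ((m ⊕ κ) → ℝ) := Matrix.toLin' (auxMat A) with hf
  have hdetf : LinearMap.det f = (auxMat A).det := LinearMap.det_toLin' _
  have hdetf0 : LinearMap.det f ≠ 0 := by rw [hdetf]; exact hdetT
  set r : (m ⊕ κ) → ℝ := Sum.elim (fun _ => 1) (fun _ => B) with hr
  set box : Set ((m ⊕ κ) → ℝ) := Set.pi Set.univ (fun j => Set.Ioo (-(r j)) (r j)) with hbox
  have hvolbox : volume box = ENNReal.ofReal (2 ^ Fintype.card m * (2 * B) ^ Fintype.card κ) := by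
    rw [hbox, Real.volume_pi_Ioo, Fintype.prod_sum_type]
    simp only [hr, Sum.elim_inl, Sum.elim_inr, Finset.prod_const, Finset.card_univ]
    rw [ENNReal.ofReal_mul (by positivity), ENNReal.ofReal_pow (by positivity),
      ENNReal.ofReal_pow (by positivity)]
    congr 3 <;> ring_nf
  have hvols : volume (f ⁻¹' box) = ENNReal.ofReal |(LinearMap.det f)⁻¹| * volume box :=
    Measure.addHaar_preimage_linearMap volume hdetf0 box
  have hfund := ZSpan.isAddFundamentalDomain' (Pi.basisFun ℝ (m ⊕ κ))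
    (volume : Measure ((m ⊕ κ) → ℝ))
  have hvolF : volume (ZSpan.fundamentalDomain (Pi.basisFun ℝ (m ⊕ κ))) = 1 := by
    rw [ZSpan.fundamentalDomain_pi_basisFun, Real.volume_pi_Ico]
    simp
  have hsymm : ∀ x ∈ f ⁻¹' box, -x ∈ f ⁻¹' box := by
    intro x hx
    simp only [Set.mem_preimage, map_neg, hbox, Set.mem_pi, Set.mem_univ, Set.mem_Ioo,
      Pi.neg_apply, forall_const] at hx ⊢
    intro j
    constructor <;> linarith [(hx j).1, (hx j).2]
  have hconv : Convex ℝ (f ⁻¹' box) :=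
    (convex_pi fun j _ => convex_Ioo _ _).linear_preimage f
  have hmain : volume (ZSpan.fundamentalDomain (Pi.basisFun ℝ (m ⊕ κ)))
      * 2 ^ Module.finrank ℝ ((m ⊕ κ) → ℝ) < volume (f ⁻¹' box) := by
    rw [hvolF, one_mul, hvols, hvolbox, hdetf, det_auxMat, ← ENNReal.ofReal_mul (abs_nonneg _)]
    rw [Module.finrank_fintype_fun_eq_card, Fintype.card_sum]
    have h2 : (2 : ENNReal) ^ (Fintype.card m + Fintype.card κ)
        = ENNReal.ofReal (2 ^ (Fintype.card m + Fintype.card κ)) := by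
      rw [ENNReal.ofReal_pow (by positivity)]; simp
    rw [h2, ENNReal.ofReal_lt_ofReal_iff (by positivity)]
    have hΔpos : 0 < |(((A.submatrix id Sum.inl).det : ℤ) : ℝ)| := by
      rw [abs_pos]; exact_mod_cast hΔ
    rw [abs_inv, mul_pow, pow_add]
    rw [inv_mul_eq_div, lt_div_iff₀ hΔpos]
    have : (0:ℝ) < 2 ^ Fintype.card m * 2 ^ Fintype.card κ := by positivity
    nlinarith
  have hcount : Countable
      (Submodule.span ℤ (Set.range (Pi.basisFun ℝ (m ⊕ κ)))).toAddSubgroup := by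
    have h : Countable (Submodule.span ℤ (Set.range (Pi.basisFun ℝ (m ⊕ κ)))) := inferInstance
    exact h
  obtain ⟨x, hx0, hxs⟩ :=
    exists_ne_zero_mem_lattice_of_measure_mul_two_pow_lt_measure hfund hsymm hconv hmain
  -- integer coordinates of `x`
  have hxmem : (x : (m ⊕ κ) → ℝ) ∈ Submodule.span ℤ (Set.range (Pi.basisFun ℝ (m ⊕ κ))) := x.2
  have hxint : ∀ j, ((⌊(x : (m ⊕ κ) → ℝ) j⌋ : ℤ) : ℝ) = (x : (m ⊕ κ) → ℝ) j := by
    intro j
    have h1 := ZSpan.floor_eq_self_of_mem (Pi.basisFun ℝ (m ⊕ κ)) _ hxmem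
    have h2 := ZSpan.repr_floor_apply (Pi.basisFun ℝ (m ⊕ κ)) (x : (m ⊕ κ) → ℝ) j
    rw [h1] at h2
    simpa using h2.symm
  set a : (m ⊕ κ) → ℤ := fun j => ⌊(x : (m ⊕ κ) → ℝ) j⌋ with ha
  have hxa : (x : (m ⊕ κ) → ℝ) = fun j => (a j : ℝ) := by
    ext j; exact (hxint j).symm
  refine ⟨a, ?_, ?_, ?_⟩
  · intro h0
    apply hx0
    apply Subtype.ext
    rw [hxa, h0]
    ext j; simp
  · ext i
    have hi : (f (x : (m ⊕ κ) → ℝ)) (Sum.inl i) ∈ Set.Ioo (-(r (Sum.inl i))) (r (Sum.inl i)) :=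
      hxs (Sum.inl i) (Set.mem_univ _)
    rw [hf, Matrix.toLin'_apply, auxMat_mulVec_inl, hxa] at hi
    simp only [hr, Sum.elim_inl, Set.mem_Ioo] at hi
    have hcast : (∑ j, (A i j : ℝ) * (a j : ℝ)) = (((A *ᵥ a) i : ℤ) : ℝ) := by
      simp [Matrix.mulVec, dotProduct]
    rw [hcast] at hi
    have h1 : (-1 : ℤ) < (A *ᵥ a) i := by exact_mod_cast hi.1
    have h2 : (A *ᵥ a) i < (1 : ℤ) := by exact_mod_cast hi.2
    simp only [Pi.zero_apply]
    omega
  · intro l
    have hl : (f (x : (m ⊕ κ) → ℝ)) (Sum.inr l) ∈ Set.Ioo (-(r (Sum.inr l))) (r (Sum.inr l)) :=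
      hxs (Sum.inr l) (Set.mem_univ _)
    rw [hf, Matrix.toLin'_apply, auxMat_mulVec_inr, hxa] at hl
    simp only [hr, Sum.elim_inr, Set.mem_Ioo] at hl
    rw [abs_lt]
    exact hl

/-- Cramer's rule for a kernel vector: the `m`-coordinates are determined by the
`κ`-coordinates, with coefficients given by maximal minors. -/
theorem cramer_kernel_identity (A : Matrix m (m ⊕ κ) ℤ) (a : m ⊕ κ → ℤ) (ha : A *ᵥ a = 0)
    (i : m) :
    (A.submatrix id Sum.inl).det * a (Sum.inl i)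
      = - ∑ l, (A.submatrix id (Function.update Sum.inl i (Sum.inr l))).det * a (Sum.inr l) := by
  set P : Matrix m m ℤ := A.submatrix id Sum.inl with hP
  have h1 : P *ᵥ (a ∘ Sum.inl) = - ∑ l, a (Sum.inr l) • (fun r => A r (Sum.inr l)) := by
    ext r
    have h := congrFun ha r
    simp only [mulVec, dotProduct, Fintype.sum_sum_type, Pi.zero_apply] at h
    simp only [mulVec, dotProduct, hP, submatrix_apply, id_eq, Function.comp_apply,
      Pi.neg_apply, Finset.sum_apply, Pi.smul_apply, smul_eq_mul]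
    have h' : ∑ l, a (Sum.inr l) * A r (Sum.inr l) = ∑ l, A r (Sum.inr l) * a (Sum.inr l) :=
      Finset.sum_congr rfl fun l _ => mul_comm _ _
    rw [h']
    linarith
  have h2 : cramer P (P *ᵥ (a ∘ Sum.inl)) i = a (Sum.inl i) * P.det := by
    rw [cramer_apply]
    have h := det_updateCol_sum P i (a ∘ Sum.inl)
    simp only [Function.comp_apply, smul_eq_mul] at h
    rw [← h]
    congr 2
    ext k
    simp only [mulVec, dotProduct, Function.comp_apply]
    exact Finset.sum_congr rfl fun j _ => mul_comm _ _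
  have h3 : cramer P (- ∑ l, a (Sum.inr l) • (fun r => A r (Sum.inr l))) i
      = - ∑ l, (A.submatrix id (Function.update Sum.inl i (Sum.inr l))).det * a (Sum.inr l) := by
    rw [map_neg, map_sum]
    simp only [map_smul, Pi.neg_apply, Finset.sum_apply, Pi.smul_apply, cramer_apply,
      smul_eq_mul]
    congr 1
    refine Finset.sum_congr rfl fun l _ => ?_
    rw [mul_comm]
    congr 2
    ext r c
    by_cases hc : c = i
    · subst hc; simp [hP]
    · simp [hP, Function.update_of_ne hc, updateCol_ne hc]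
  rw [h1, h3] at h2
  rw [h2, mul_comm]

/-- Core statement with columns indexed by `m ⊕ κ` and a leading maximal minor of maximal
absolute value. -/
theorem exists_small_kernel_vector_sum [Nonempty κ] (A : Matrix m (m ⊕ κ) ℤ)
    (hΔ : (A.submatrix id Sum.inl).det ≠ 0)
    (hmax : ∀ p : m → m ⊕ κ, |(A.submatrix id p).det| ≤ |(A.submatrix id Sum.inl).det|) :
    ∃ a : m ⊕ κ → ℤ, a ≠ 0 ∧ A *ᵥ a = 0 ∧
      ∀ j, ((|a j| : ℤ) : ℝ) ≤ (Fintype.card κ : ℝ) *
        ((|(A.submatrix id Sum.inl).det| : ℤ) : ℝ) ^ ((Fintype.card κ : ℝ)⁻¹) := by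
  classical
  set Δ : ℤ := (A.submatrix id Sum.inl).det with hΔdef
  set k : ℕ := Fintype.card κ with hk
  have hk0 : k ≠ 0 := Fintype.card_ne_zero
  have hk1 : (1 : ℝ) ≤ k := by exact_mod_cast Nat.one_le_iff_ne_zero.mpr hk0
  have hΔ1 : (1 : ℝ) ≤ ((|Δ| : ℤ) : ℝ) := by
    have : (1 : ℤ) ≤ |Δ| := Int.one_le_abs hΔ
    exact_mod_cast this
  set X : ℝ := ((|Δ| : ℤ) : ℝ) ^ ((k : ℝ)⁻¹) with hX
  have hX0 : 0 ≤ X := Real.rpow_nonneg (by linarith) _
  have hXk : X ^ k = ((|Δ| : ℤ) : ℝ) := by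
    rw [hX, ← Real.rpow_natCast, ← Real.rpow_mul (by linarith),
      inv_mul_cancel₀ (by exact_mod_cast hk0), Real.rpow_one]
  set Y : ℕ := ⌊X⌋₊ with hY
  have hYX : (Y : ℝ) ≤ X := Nat.floor_le hX0
  have hXY : X < (Y : ℝ) + 1 := Nat.lt_floor_add_one X
  have hlt : |((Δ : ℤ) : ℝ)| < ((Y : ℝ) + 1) ^ k := by
    have h1 : X ^ k < ((Y : ℝ) + 1) ^ k := pow_lt_pow_left₀ hXY hX0 hk0
    have h2 : |((Δ : ℤ) : ℝ)| = ((|Δ| : ℤ) : ℝ) := by push_cast; rfl
    rw [h2, ← hXk]; exact h1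
  obtain ⟨a, ha0, haker, habox⟩ :=
    exists_int_vector_in_box A hΔ ((Y : ℝ) + 1) (by positivity) hlt
  have hinr : ∀ l, |a (Sum.inr l)| ≤ (Y : ℤ) := by
    intro l
    have h := habox l
    have h' : ((|a (Sum.inr l)| : ℤ) : ℝ) < (((Y : ℤ) + 1 : ℤ) : ℝ) := by
      push_cast; exact h
    have h'' : |a (Sum.inr l)| < (Y : ℤ) + 1 := by exact_mod_cast h'
    omega
  have hinl : ∀ i, |a (Sum.inl i)| ≤ (k : ℤ) * (Y : ℤ) := by
    intro i
    have hid := cramer_kernel_identity A a haker i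
    have habs : |Δ| * |a (Sum.inl i)| ≤ |Δ| * ((k : ℤ) * (Y : ℤ)) := by
      rw [← abs_mul, hid, abs_neg]
      calc |∑ l, (A.submatrix id (Function.update Sum.inl i (Sum.inr l))).det * a (Sum.inr l)|
          ≤ ∑ l, |(A.submatrix id (Function.update Sum.inl i (Sum.inr l))).det
              * a (Sum.inr l)| := Finset.abs_sum_le_sum_abs _ _
        _ ≤ ∑ _l : κ, |Δ| * (Y : ℤ) := by
            refine Finset.sum_le_sum fun l _ => ?_
            rw [abs_mul]
            exact mul_le_mul (hmax _) (hinr l) (abs_nonneg _) (abs_nonneg _)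
        _ = |Δ| * ((k : ℤ) * (Y : ℤ)) := by
            rw [Finset.sum_const, Finset.card_univ, nsmul_eq_mul]; ring
    exact le_of_mul_le_mul_left habs (abs_pos.mpr hΔ)
  refine ⟨a, ha0, haker, ?_⟩
  rintro (i | l)
  · have h := hinl i
    have h' : ((|a (Sum.inl i)| : ℤ) : ℝ) ≤ (((k : ℤ) * (Y : ℤ) : ℤ) : ℝ) := by exact_mod_cast h
    push_cast at h'
    calc ((|a (Sum.inl i)| : ℤ) : ℝ) ≤ (k : ℝ) * (Y : ℝ) := by exact_mod_cast h'
      _ ≤ (k : ℝ) * X := by gcongr
  · have h := hinr l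
    have h' : ((|a (Sum.inr l)| : ℤ) : ℝ) ≤ (Y : ℝ) := by exact_mod_cast h
    calc ((|a (Sum.inr l)| : ℤ) : ℝ) ≤ (Y : ℝ) := h'
      _ ≤ X := hYX
      _ ≤ (k : ℝ) * X := by nlinarith

end Mink

section General

variable {m n : Type*} [Fintype m] [DecidableEq m] [Fintype n] [DecidableEq n]

/-- **Siegel's lemma, sharp form for integer matrices.**  Let `A` be an integer matrix with
rows indexed by `m` and columns indexed by `n`, `card m < card n`, with a nonzero maximal minor.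
Then there are a column selection `p₀` whose minor has maximal absolute value `H` and a nonzero
integer vector `a` in the kernel of `A` with `|a j| ≤ k * H ^ (1 / k)`, `k = card n - card m`. -/
theorem exists_small_kernel_vector (A : Matrix m n ℤ)
    (hcard : Fintype.card m < Fintype.card n)
    (hA : ∃ p : m → n, (A.submatrix id p).det ≠ 0) :
    ∃ (p₀ : m → n) (a : n → ℤ),
      (∀ p : m → n, |(A.submatrix id p).det| ≤ |(A.submatrix id p₀).det|) ∧
      (A.submatrix id p₀).det ≠ 0 ∧ a ≠ 0 ∧ A *ᵥ a = 0 ∧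
      ∀ j, ((|a j| : ℤ) : ℝ) ≤ ((Fintype.card n - Fintype.card m : ℕ) : ℝ) *
        ((|(A.submatrix id p₀).det| : ℤ) : ℝ) ^
          (((Fintype.card n - Fintype.card m : ℕ) : ℝ)⁻¹) := by
  classical
  obtain ⟨p₁, hp₁⟩ := hA
  have : Nonempty (m → n) := ⟨p₁⟩
  obtain ⟨p₀, hp₀⟩ := Finite.exists_max (fun p : m → n => |(A.submatrix id p).det|)
  have hΔ : (A.submatrix id p₀).det ≠ 0 := by
    intro h0
    have := hp₀ p₁
    simp only [h0, abs_zero] at this
    exact hp₁ (abs_nonpos_iff.mp this)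
  have hinj : Function.Injective p₀ := by
    intro i j hij
    by_contra hne
    apply hΔ
    apply Matrix.det_zero_of_column_eq hne
    intro r
    simp [hij]
  set e : m ⊕ ↥(Set.range p₀)ᶜ ≃ n :=
    (Equiv.sumCongr (Equiv.ofInjective p₀ hinj) (Equiv.refl _)).trans
      (Equiv.Set.sumCompl (Set.range p₀)) with he
  have he_inl : ∀ i, e (Sum.inl i) = p₀ i := by
    intro i; simp [he]
  have hcardκ : Fintype.card ↥(Set.range p₀)ᶜ = Fintype.card n - Fintype.card m := by
    have := Fintype.card_congr e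
    rw [Fintype.card_sum] at this
    omega
  have : Nonempty ↥(Set.range p₀)ᶜ := by
    apply Fintype.card_pos_iff.mp
    rw [hcardκ]; omega
  set A' : Matrix m (m ⊕ ↥(Set.range p₀)ᶜ) ℤ := A.submatrix id e with hA'
  have hsub : ∀ p : m → m ⊕ ↥(Set.range p₀)ᶜ, A'.submatrix id p = A.submatrix id (e ∘ p) := by
    intro p; ext r c; simp [hA']
  have hinl : A'.submatrix id Sum.inl = A.submatrix id p₀ := by
    rw [hsub]
    have : e ∘ Sum.inl = p₀ := funext he_inl
    rw [this]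
  have hΔ' : (A'.submatrix id Sum.inl).det ≠ 0 := by rw [hinl]; exact hΔ
  have hmax' : ∀ p : m → m ⊕ ↥(Set.range p₀)ᶜ,
      |(A'.submatrix id p).det| ≤ |(A'.submatrix id Sum.inl).det| := by
    intro p; rw [hinl, hsub]; exact hp₀ _
  obtain ⟨a', ha'0, ha'ker, ha'bd⟩ := exists_small_kernel_vector_sum A' hΔ' hmax'
  refine ⟨p₀, a' ∘ e.symm, hp₀, hΔ, ?_, ?_, ?_⟩
  · intro h0
    apply ha'0
    ext j
    have := congrFun h0 (e j)
    simpa using this
  · ext r
    have := congrFun ha'ker r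
    simp only [mulVec, dotProduct, hA', submatrix_apply, id_eq, Pi.zero_apply] at this ⊢
    rw [← this]
    exact (Fintype.sum_equiv e _ _ (fun j => by simp)).symm
  · intro j
    have := ha'bd (e.symm j)
    rw [hinl, hcardκ] at this
    simpa using this

end General

end Fermat.Agent.S17.H110
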