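import Fermat.Agent.S17.H110.SiegelAlg
import Fermat.Agent.S17.H110.SiegelMink

/-!
# Siegel's lemma in Pluecker-height form (helper110, row S17, leaf MINK)

`siegel_pluecker`: for a rational matrix `M` with linearly independent rows indexed by `m` and
columns indexed by `n`, `card m < card n`, `k = card n - card m`, there is a primitive integer
vector `a` in the kernel of `M` with

  `logHeight a ≤ (1 / k) * logHeight (maximal minors of M) + log k`.

The exponent `1 / k` is sharp.  Heights are Mathlib's `Height.logHeight` over `ℚ`.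
-/

set_option linter.unusedSectionVars false

namespace Fermat.Agent.S17.H110

open Matrix

section Final

variable {m n : Type*} [Fintype m] [DecidableEq m] [Fintype n] [DecidableEq n]

/-- The logarithmic height of the vector of maximal minors of a rational matrix with independent
rows, computed from a saturated integer model. -/
theorem logHeight_minors_eq_of_saturated (M : Matrix m n ℚ) (A : Matrix m n ℤ)
    (T : Matrix m m ℚ) (hT : T.det ≠ 0) (hA : A.map (Int.cast : ℤ → ℚ) = T * M)
    [Nonempty (m → n)]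
    (hgcd : Finset.univ.gcd (fun p : m → n => (A.submatrix id p).det) = 1) :
    Height.logHeight (fun p : m → n => (M.submatrix id p).det)
      = Real.log ((⨆ p : m → n, |(A.submatrix id p).det| : ℤ) : ℝ) := by
  have h1 : (fun p : m → n => (((A.submatrix id p).det : ℤ) : ℚ))
      = T.det • (fun p : m → n => (M.submatrix id p).det) := by
    ext p
    rw [minor_cast_eq_of_eq_mul T M A hA p]
    simp
  have h2 := Rat.logHeight_eq_max_abs_of_gcd_eq_one hgcd
  have h3 : ((Int.cast : ℤ → ℚ) ∘ fun p : m → n => (A.submatrix id p).det)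
      = T.det • (fun p : m → n => (M.submatrix id p).det) := h1
  rw [h3, Height.logHeight_smul_eq_logHeight _ hT] at h2
  exact h2

/-- **Siegel's lemma with Pluecker height, sharp exponent.**  For a rational matrix `M` with
linearly independent rows (indexed by `m`) and more columns (indexed by `n`) than rows, there is
a primitive integer vector `a` in the kernel of `M` whose logarithmic height is at most
`(1 / k) * h + log k`, where `k = card n - card m` and `h` is the logarithmic height of the
vector of all maximal minors `det (M.submatrix id p)`, `p : m → n`. -/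
theorem siegel_pluecker (M : Matrix m n ℚ) (hM : LinearIndependent ℚ M.row)
    (hcard : Fintype.card m < Fintype.card n) :
    ∃ a : n → ℤ, Finset.univ.gcd a = 1 ∧ M *ᵥ (fun j => (a j : ℚ)) = 0 ∧
      Height.logHeight (fun j => (a j : ℚ)) = Real.log ((⨆ j, |a j| : ℤ) : ℝ) ∧
      Height.logHeight (fun j => (a j : ℚ)) ≤
        (((Fintype.card n - Fintype.card m : ℕ) : ℝ)⁻¹) *
          Height.logHeight (fun p : m → n => (M.submatrix id p).det)
        + Real.log ((Fintype.card n - Fintype.card m : ℕ) : ℝ) := by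
  classical
  obtain ⟨A, T, hT, hA, hAne, hgcd⟩ := exists_saturated_int_matrix M hM
  obtain ⟨p₀, a₀, hmax, hΔ, ha₀, hker₀, hbd₀⟩ := exists_small_kernel_vector A hcard hAne
  have hne_n : Nonempty n := by
    apply Fintype.card_pos_iff.mp; omega
  have : Nonempty (m → n) := ⟨p₀⟩
  set k : ℕ := Fintype.card n - Fintype.card m with hk
  have hk0 : k ≠ 0 := by omega
  have hk1 : (1 : ℝ) ≤ k := by exact_mod_cast Nat.one_le_iff_ne_zero.mpr hk0
  -- the height of the minors
  have hH := logHeight_minors_eq_of_saturated M A T hT hA hgcd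
  have hsup : (⨆ p : m → n, |(A.submatrix id p).det| : ℤ) = |(A.submatrix id p₀).det| := by
    apply le_antisymm
    · exact ciSup_le hmax
    · exact le_ciSup (f := fun p : m → n => |(A.submatrix id p).det|)
        (Set.finite_range _).bddAbove p₀
  rw [hsup] at hH
  have hΔ1 : (1 : ℝ) ≤ ((|(A.submatrix id p₀).det| : ℤ) : ℝ) := by
    have : (1 : ℤ) ≤ |(A.submatrix id p₀).det| := Int.one_le_abs hΔ
    exact_mod_cast this
  -- make `a₀` primitive
  obtain ⟨a, ha, hagcd⟩ := Finset.extract_gcd a₀ (Finset.univ_nonempty (α := n))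
  set G : ℤ := Finset.univ.gcd a₀ with hG
  have hG0 : G ≠ 0 := by
    intro h0
    apply ha₀
    ext j
    rw [ha j (Finset.mem_univ j), h0, zero_mul]; rfl
  have haj : ∀ j, a₀ j = G * a j := fun j => ha j (Finset.mem_univ j)
  have habs : ∀ j, |a j| ≤ |a₀ j| := by
    intro j
    rw [haj j, abs_mul]
    have : (1 : ℤ) ≤ |G| := Int.one_le_abs hG0
    nlinarith [abs_nonneg (a j)]
  have hkerA : A *ᵥ a = 0 := by
    have h1 : A *ᵥ a₀ = G • (A *ᵥ a) := by
      rw [← Matrix.mulVec_smul]
      congr 1
      ext j; simp [haj j]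
    rw [h1] at hker₀
    ext i
    have := congrFun hker₀ i
    simp only [Pi.smul_apply, smul_eq_mul, Pi.zero_apply, mul_eq_zero] at this
    rcases this with h | h
    · exact absurd h hG0
    · exact h
  have hkerM : M *ᵥ (fun j => (a j : ℚ)) = 0 := by
    apply Matrix.eq_zero_of_mulVec_eq_zero hT
    rw [Matrix.mulVec_mulVec, ← hA]
    ext i
    have := congrFun hkerA i
    simp only [mulVec, dotProduct, Pi.zero_apply, map_apply] at this ⊢
    have h2 : ((∑ j, A i j * a j : ℤ) : ℚ) = 0 := by rw [this]; simp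
    push_cast at h2
    exact h2
  have hlog : Height.logHeight (fun j => (a j : ℚ)) = Real.log ((⨆ j, |a j| : ℤ) : ℝ) :=
    Rat.logHeight_eq_max_abs_of_gcd_eq_one hagcd
  refine ⟨a, hagcd, hkerM, hlog, ?_⟩
  rw [hlog, hH]
  obtain ⟨j₀, hj₀⟩ := exists_eq_ciSup_of_finite (f := fun j => |a j|)
  rw [← hj₀]
  have ha_ne : a ≠ 0 := by
    intro h0
    rw [h0] at hagcd
    have : Finset.univ.gcd (0 : n → ℤ) = 0 := Finset.gcd_eq_zero_iff.mpr (by simp)
    rw [this] at hagcd
    exact zero_ne_one hagcd
  have hsup_pos : (0 : ℝ) < ((|a j₀| : ℤ) : ℝ) := by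
    have h1 : ∃ j, a j ≠ 0 := by
      by_contra hcon
      push Not at hcon
      exact ha_ne (funext hcon)
    obtain ⟨j, hj⟩ := h1
    have h2 : |a j| ≤ |a j₀| := by
      have := le_ciSup (Set.finite_range (fun j => |a j|)).bddAbove j
      rw [hj₀]; exact this
    have h3 : (0 : ℤ) < |a j| := abs_pos.mpr hj
    exact_mod_cast lt_of_lt_of_le h3 h2
  have hbound : ((|a j₀| : ℤ) : ℝ) ≤ (k : ℝ) *
      ((|(A.submatrix id p₀).det| : ℤ) : ℝ) ^ ((k : ℝ)⁻¹) := by
    have h1 : ((|a j₀| : ℤ) : ℝ) ≤ ((|a₀ j₀| : ℤ) : ℝ) := by exact_mod_cast habs j₀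
    exact h1.trans (hbd₀ j₀)
  calc Real.log ((|a j₀| : ℤ) : ℝ)
      ≤ Real.log ((k : ℝ) * ((|(A.submatrix id p₀).det| : ℤ) : ℝ) ^ ((k : ℝ)⁻¹)) :=
        Real.log_le_log hsup_pos hbound
    _ = (k : ℝ)⁻¹ * Real.log ((|(A.submatrix id p₀).det| : ℤ) : ℝ) + Real.log (k : ℝ) := by
        rw [Real.log_mul (by positivity) (by positivity), Real.log_rpow (by linarith)]
        ring

end Final

end Fermat.Agent.S17.H110
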