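import Mathlib

/-!
# Siegel's lemma in Pluecker-height form: algebraic part (helper110, row S17, leaf MINK)

* `det_mul_eq_sum_prod_mul_minor` : one half of Cauchy-Binet.
* `exists_minor_ne_zero_of_linearIndependent` : independent rows over a field give a nonzero
  maximal minor.
* `exists_saturated_int_matrix` : a rational `d x n` matrix with independent rows is, up to an
  invertible rational `d x d` matrix on the left, an integer matrix whose maximal minors have
  gcd one.
-/

namespace Fermat.Agent.S17.H110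

open Matrix Finset

section CauchyBinetHalf

variable {R : Type*} [CommRing R] {m n : Type*} [Fintype m] [DecidableEq m] [Fintype n]

/-- One half of the Cauchy-Binet expansion: `det (A * B)` is a linear combination of the
maximal minors of `A`. -/
theorem det_mul_eq_sum_prod_mul_minor (A : Matrix m n R) (B : Matrix n m R) :
    (A * B).det = ∑ p : m → n, (∏ i, B (p i) i) * (A.submatrix id p).det := by
  calc (A * B).det
      = ∑ p : m → n, ∑ σ : Equiv.Perm m,
          ((Equiv.Perm.sign σ : ℤ) : R) * ∏ i, A (σ i) (p i) * B (p i) i := by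
        simp only [det_apply', mul_apply, prod_univ_sum, mul_sum, Fintype.piFinset_univ]
        rw [Finset.sum_comm]
    _ = ∑ p : m → n, (∏ i, B (p i) i) * (A.submatrix id p).det := by
        refine Finset.sum_congr rfl fun p _ => ?_
        rw [det_apply', Finset.mul_sum]
        refine Finset.sum_congr rfl fun σ _ => ?_
        simp only [submatrix_apply, id_eq, Finset.prod_mul_distrib]
        ring

end CauchyBinetHalf

section Field

variable {K : Type*} [Field K] {m n : Type*} [Fintype m] [DecidableEq m] [Fintype n]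

/-- If the rows of `A` are linearly independent over a field, some maximal minor of `A` is
nonzero. -/
theorem exists_minor_ne_zero_of_linearIndependent (A : Matrix m n K)
    (hA : LinearIndependent K A.row) : ∃ p : m → n, (A.submatrix id p).det ≠ 0 := by
  have hrank : A.rank = Fintype.card m := hA.rank_matrix
  have hsurj : Function.Surjective A.mulVec := by
    have hr : LinearMap.range A.mulVecLin = ⊤ := by
      apply Submodule.eq_top_of_finrank_eq
      rw [Module.finrank_fintype_fun_eq_card]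
      exact hrank
    intro y
    have : y ∈ LinearMap.range A.mulVecLin := by rw [hr]; trivial
    obtain ⟨x, hx⟩ := this
    exact ⟨x, hx⟩
  obtain ⟨B, hB⟩ := mulVec_surjective_iff_exists_right_inverse.mp hsurj
  by_contra hcon
  push Not at hcon
  have h1 : (A * B).det = 0 := by
    rw [det_mul_eq_sum_prod_mul_minor]
    exact Finset.sum_eq_zero fun p _ => by rw [hcon p, mul_zero]
  rw [hB, det_one] at h1
  exact one_ne_zero h1

/-- If all maximal minors of `A` vanish (over a field), there is a nontrivial linear relation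
between the rows of `A`. -/
theorem exists_relation_of_minors_eq_zero (A : Matrix m n K)
    (hA : ∀ p : m → n, (A.submatrix id p).det = 0) :
    ∃ c : m → K, (∃ i, c i ≠ 0) ∧ ∀ j, ∑ i, c i * A i j = 0 := by
  have hdep : ¬ LinearIndependent K A.row := fun h => by
    obtain ⟨p, hp⟩ := exists_minor_ne_zero_of_linearIndependent A h
    exact hp (hA p)
  rw [Fintype.not_linearIndependent_iff] at hdep
  obtain ⟨g, hg, hi⟩ := hdep
  refine ⟨g, hi, fun j => ?_⟩
  have := congrFun hg j
  simpa [Matrix.row] using this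

end Field

section Descent

variable {m n : Type*} [Fintype m] [DecidableEq m] [Fintype n]

/-- The determinant of the identity matrix with one row replaced. -/
theorem det_one_updateRow' {R : Type*} [CommRing R] (i : m) (v : m → R) :
    ((1 : Matrix m m R).updateRow i v).det = v i := by
  have h := det_updateRow_sum (1 : Matrix m m R) i v
  rw [det_one, smul_eq_mul, mul_one] at h
  rw [← h]
  congr 2
  ext k
  simp [Finset.sum_apply, Matrix.one_apply]

/-- One descent step: if a prime `ℓ` divides all maximal minors of the integer matrix `A`, then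
`A` can be replaced by an integer matrix `A' = T * A` with `det T = 1 / ℓ`. -/
theorem exists_descent_step (A : Matrix m n ℤ) (ℓ : ℕ) (hℓ : ℓ.Prime)
    (hdiv : ∀ p : m → n, (ℓ : ℤ) ∣ (A.submatrix id p).det) :
    ∃ (A' : Matrix m n ℤ) (T : Matrix m m ℚ), T.det = (ℓ : ℚ)⁻¹ ∧
      A'.map (Int.cast : ℤ → ℚ) = T * A.map (Int.cast : ℤ → ℚ) := by
  have : Fact ℓ.Prime := ⟨hℓ⟩
  have hℓ0 : (ℓ : ℚ) ≠ 0 := by exact_mod_cast hℓ.ne_zero
  -- reduce mod ℓ
  set Abar : Matrix m n (ZMod ℓ) := A.map (Int.castRingHom (ZMod ℓ)) with hAbar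
  have hAbar0 : ∀ p : m → n, (Abar.submatrix id p).det = 0 := by
    intro p
    have h1 : Abar.submatrix id p = (Int.castRingHom (ZMod ℓ)).mapMatrix (A.submatrix id p) := by
      ext i j; simp [hAbar]
    rw [h1, ← RingHom.map_det]
    exact (ZMod.intCast_zmod_eq_zero_iff_dvd _ _).mpr (hdiv p)
  obtain ⟨cb, ⟨i₀, hi₀⟩, hcb⟩ := exists_relation_of_minors_eq_zero Abar hAbar0
  -- integer lift of the relation, normalised to have coefficient one at `i₀`
  set c : m → ℤ := fun i => if i = i₀ then 1 else ((((cb i₀)⁻¹ * cb i).val : ℕ) : ℤ) with hcdef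
  have hc : ∀ i, ((c i : ℤ) : ZMod ℓ) = (cb i₀)⁻¹ * cb i := by
    intro i
    by_cases h : i = i₀
    · subst h; simp [hcdef, inv_mul_cancel₀ hi₀]
    · simp [hcdef, h]
  have hci₀ : c i₀ = 1 := by simp [hcdef]
  have hrel : ∀ j, (ℓ : ℤ) ∣ ∑ i, c i * A i j := by
    intro j
    rw [← ZMod.intCast_zmod_eq_zero_iff_dvd]
    push_cast
    simp only [hc]
    calc ∑ i, (cb i₀)⁻¹ * cb i * ((A i j : ℤ) : ZMod ℓ)
        = (cb i₀)⁻¹ * ∑ i, cb i * Abar i j := by
          rw [Finset.mul_sum]
          refine Finset.sum_congr rfl fun i _ => ?_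
          simp [hAbar, mul_assoc]
      _ = 0 := by rw [hcb j, mul_zero]
  choose r hr using hrel
  refine ⟨A.updateRow i₀ r,
    (1 : Matrix m m ℚ).updateRow i₀ (fun k => (c k : ℚ) / ℓ), ?_, ?_⟩
  · rw [det_one_updateRow', hci₀]
    simp
  · rw [updateRow_mul, Matrix.one_mul]
    ext i j
    by_cases h : i = i₀
    · subst h
      simp only [map_apply, updateRow_self]
      have h2 : ∑ k, (c k : ℚ) * (A k j : ℚ) = (ℓ : ℚ) * (r j : ℚ) := by
        have h3 : ((∑ i, c i * A i j : ℤ) : ℚ) = (((ℓ : ℤ) * r j : ℤ) : ℚ) := by rw [hr j]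
        push_cast at h3
        exact h3
      simp only [vecMul, dotProduct, map_apply]
      have h4 : ∑ k, (c k : ℚ) / ℓ * (A k j : ℚ) = (∑ k, (c k : ℚ) * (A k j : ℚ)) / ℓ := by
        rw [Finset.sum_div]
        refine Finset.sum_congr rfl fun k _ => ?_
        ring
      rw [h4, h2]
      field_simp
    · simp [updateRow_ne h]

omit [Fintype n] in
/-- Maximal minors are multiplied by `det T` under left multiplication by `T`. -/
theorem minor_cast_eq_of_eq_mul (T : Matrix m m ℚ) (B : Matrix m n ℚ) (A' : Matrix m n ℤ)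
    (h : A'.map (Int.cast : ℤ → ℚ) = T * B) (p : m → n) :
    (((A'.submatrix id p).det : ℤ) : ℚ) = T.det * (B.submatrix id p).det := by
  have h1 : (((A'.submatrix id p).det : ℤ) : ℚ)
      = ((Int.castRingHom ℚ).mapMatrix (A'.submatrix id p)).det := by
    rw [← RingHom.map_det]; rfl
  have h2 : (Int.castRingHom ℚ).mapMatrix (A'.submatrix id p)
      = (A'.map (Int.cast : ℤ → ℚ)).submatrix id p := by
    ext i j; simp
  have h3 : (T * B).submatrix id p = T * B.submatrix id p := by
    ext i j; simp [Matrix.mul_apply]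
  rw [h1, h2, h, h3, det_mul]

/-- Descent: starting from an integer matrix `A` with a nonzero maximal minor, reach an
integer matrix `A' = T * A` (with `T` rational invertible) such that no prime divides all
maximal minors of `A'`. -/
theorem exists_saturated_of_int (p₁ : m → n) :
    ∀ (N : ℕ) (A : Matrix m n ℤ), (A.submatrix id p₁).det.natAbs = N → N ≠ 0 →
    ∃ (A' : Matrix m n ℤ) (T : Matrix m m ℚ), T.det ≠ 0 ∧
      A'.map (Int.cast : ℤ → ℚ) = T * A.map (Int.cast : ℤ → ℚ) ∧
      ∀ ℓ : ℕ, ℓ.Prime → ∃ p : m → n, ¬ (ℓ : ℤ) ∣ (A'.submatrix id p).det := by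
  intro N
  induction N using Nat.strong_induction_on with
  | _ N ih =>
    intro A hN hN0
    by_cases hsat : ∀ ℓ : ℕ, ℓ.Prime → ∃ p : m → n, ¬ (ℓ : ℤ) ∣ (A.submatrix id p).det
    · exact ⟨A, 1, by simp, by simp, hsat⟩
    · push Not at hsat
      obtain ⟨ℓ, hℓ, hdiv⟩ := hsat
      obtain ⟨A₁, T₁, hT₁, hA₁⟩ := exists_descent_step A ℓ hℓ hdiv
      have hℓ0 : (ℓ : ℚ) ≠ 0 := by exact_mod_cast hℓ.ne_zero
      have hminor := minor_cast_eq_of_eq_mul T₁ _ A₁ hA₁ p₁
      have hcast : ((A.map (Int.cast : ℤ → ℚ)).submatrix id p₁).det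
          = (((A.submatrix id p₁).det : ℤ) : ℚ) := by
        have := minor_cast_eq_of_eq_mul 1 (A.map (Int.cast : ℤ → ℚ)) A (by simp) p₁
        rw [this, det_one, one_mul]
      rw [hT₁, hcast] at hminor
      -- `ℓ * minor A₁ = minor A`
      have hZ : (ℓ : ℤ) * (A₁.submatrix id p₁).det = (A.submatrix id p₁).det := by
        have : ((ℓ : ℚ)) * (((A₁.submatrix id p₁).det : ℤ) : ℚ)
            = (((A.submatrix id p₁).det : ℤ) : ℚ) := by
          rw [hminor]; field_simp
        exact_mod_cast this
      have hN1 : ℓ * (A₁.submatrix id p₁).det.natAbs = N := by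
        rw [← hN, ← hZ, Int.natAbs_mul, Int.natAbs_natCast]
      have hN1pos : (A₁.submatrix id p₁).det.natAbs ≠ 0 := by
        intro h0
        rw [h0, mul_zero] at hN1
        exact hN0 hN1.symm
      have hlt : (A₁.submatrix id p₁).det.natAbs < N := by
        rw [← hN1]
        have := hℓ.one_lt
        have hpos : 0 < (A₁.submatrix id p₁).det.natAbs := Nat.pos_of_ne_zero hN1pos
        nlinarith
      obtain ⟨A', T₂, hT₂, hA', hsat'⟩ := ih _ hlt A₁ rfl hN1pos
      refine ⟨A', T₂ * T₁, ?_, ?_, hsat'⟩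
      · rw [det_mul, hT₁]
        exact mul_ne_zero hT₂ (inv_ne_zero hℓ0)
      · rw [hA', hA₁, Matrix.mul_assoc]

/-- **Saturation.** A rational matrix `M` with linearly independent rows can be written as
`T⁻¹ * A` with `T` an invertible rational square matrix and `A` an integer matrix whose
maximal minors have gcd one. -/
theorem exists_saturated_int_matrix [DecidableEq n] (M : Matrix m n ℚ)
    (hM : LinearIndependent ℚ M.row) :
    ∃ (A : Matrix m n ℤ) (T : Matrix m m ℚ), T.det ≠ 0 ∧
      A.map (Int.cast : ℤ → ℚ) = T * M ∧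
      (∃ p : m → n, (A.submatrix id p).det ≠ 0) ∧
      Finset.univ.gcd (fun p : m → n => (A.submatrix id p).det) = 1 := by
  classical
  -- clear denominators
  obtain ⟨b, hb⟩ := IsLocalization.exist_integer_multiples (nonZeroDivisors ℤ)
    (Finset.univ : Finset (m × n)) (fun ij => M ij.1 ij.2)
  have hb0 : ((b : ℤ) : ℚ) ≠ 0 := by
    have := nonZeroDivisors.coe_ne_zero b
    exact_mod_cast this
  choose z hz using fun ij : m × n => hb ij (Finset.mem_univ ij)
  set A₀ : Matrix m n ℤ := Matrix.of fun i j => z (i, j) with hA₀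
  have hA₀M : A₀.map (Int.cast : ℤ → ℚ) = (((b : ℤ) : ℚ) • (1 : Matrix m m ℚ)) * M := by
    ext i j
    have := hz (i, j)
    simp only [map_apply, hA₀, Matrix.of_apply, smul_mul, Matrix.one_mul, Matrix.smul_apply,
      smul_eq_mul]
    simpa [Algebra.smul_def] using this
  have hdetT₀ : (((b : ℤ) : ℚ) • (1 : Matrix m m ℚ)).det ≠ 0 := by
    rw [det_smul, det_one, mul_one]
    exact pow_ne_zero _ hb0
  obtain ⟨p₁, hp₁⟩ := exists_minor_ne_zero_of_linearIndependent M hM
  have hminor₀ := minor_cast_eq_of_eq_mul _ M A₀ hA₀M p₁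
  have hp₁' : (A₀.submatrix id p₁).det ≠ 0 := by
    intro h0
    rw [h0, Int.cast_zero] at hminor₀
    exact (mul_ne_zero hdetT₀ hp₁) hminor₀.symm
  obtain ⟨A, T, hT, hA, hsat⟩ := exists_saturated_of_int p₁ _ A₀ rfl
    (Int.natAbs_ne_zero.mpr hp₁')
  have hAM : A.map (Int.cast : ℤ → ℚ) = (T * (((b : ℤ) : ℚ) • (1 : Matrix m m ℚ))) * M := by
    rw [hA, hA₀M, Matrix.mul_assoc]
  have hdet : (T * (((b : ℤ) : ℚ) • (1 : Matrix m m ℚ))).det ≠ 0 := by
    rw [det_mul]; exact mul_ne_zero hT hdetT₀
  have hpA : (A.submatrix id p₁).det ≠ 0 := by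
    intro h0
    have := minor_cast_eq_of_eq_mul _ M A hAM p₁
    rw [h0, Int.cast_zero] at this
    exact (mul_ne_zero hdet hp₁) this.symm
  refine ⟨A, _, hdet, hAM, ⟨p₁, hpA⟩, ?_⟩
  -- gcd one
  set g : ℤ := Finset.univ.gcd (fun p : m → n => (A.submatrix id p).det) with hg
  have hg0 : g ≠ 0 := by
    intro h0
    rw [hg, Finset.gcd_eq_zero_iff] at h0
    exact hpA (h0 p₁ (Finset.mem_univ _))
  have hgn : normalize g = g := Finset.normalize_gcd
  have hg_nonneg : 0 ≤ g := by
    rw [← hgn, ← Int.abs_eq_normalize]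
    exact abs_nonneg _
  by_cases h1 : g.natAbs = 1
  · have h2 := Int.natAbs_of_nonneg hg_nonneg
    rw [h1] at h2
    exact_mod_cast h2.symm
  · exfalso
    obtain ⟨ℓ, hℓ, hℓg⟩ := Nat.exists_prime_and_dvd h1
    obtain ⟨p, hp⟩ := hsat ℓ hℓ
    apply hp
    have h2 : (ℓ : ℤ) ∣ g := Int.natCast_dvd.mpr hℓg
    exact h2.trans (Finset.gcd_dvd (Finset.mem_univ p))

end Descent

end Fermat.Agent.S17.H110
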